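import Fermat.Agent.S24.Ana.Degree

/-!
# S24 / Points: extending statements about orders from the coordinate ring to the function field
(aux file for `Ana/Points.lean`)
-/

set_option autoImplicit false

noncomputable section

namespace Fermat.Agent.S24

open AlgebraicCurve ModularCurve IntermediateField UpperHalfPlane
open scoped MatrixGroups Manifold

namespace ExtAux

/-- The order of a quotient of nonzero Laurent series is the difference of the orders. -/
theorem order_div_of_ne_zero {x y : LaurentSeries ℂ} (hx : x ≠ 0) (hy : y ≠ 0) :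
    (x / y).order = x.order - y.order := by
  have h := HahnSeries.order_mul (div_ne_zero hx hy) hy
  rw [div_mul_cancel₀ x hy] at h
  rw [h, add_sub_cancel_right]

/-- The order of the image of a quotient of nonzero elements under a ring homomorphism into the
field of Laurent series. -/
theorem order_map_div {F : Type*} [Field F] (τ : F →+* LaurentSeries ℂ) {a b : F}
    (ha : a ≠ 0) (hb : b ≠ 0) : (τ (a / b)).order = (τ a).order - (τ b).order := by
  rw [map_div₀, order_div_of_ne_zero ((map_ne_zero τ).2 ha) ((map_ne_zero τ).2 hb)]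

/-- A nonzero element of the function field which comes from the coordinate ring comes from a
nonzero element. -/
theorem coord_ne_zero_of_coe_ne_zero (N : ℕ) [NeZero N] {a : coordRing N}
    (ha : (a : FN N) ≠ 0) : a ≠ 0 := by
  intro h0
  apply ha
  rw [h0]
  rfl

end ExtAux

/-- Orders of two embeddings agree on `FN N` as soon as they agree on nonzero elements of the
coordinate ring. -/
theorem order_eq_of_coord (N : ℕ) [NeZero N] (τ τ' : FN N →+* LaurentSeries ℂ)
    (h : ∀ a : coordRing N, a ≠ 0 → (τ (a : FN N)).order = (τ' (a : FN N)).order) (f : FN N) :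
    (τ f).order = (τ' f).order := by
  obtain ⟨a, b, hb, rfl⟩ := exists_div_coordRing N f
  have hb' : b ≠ 0 := ExtAux.coord_ne_zero_of_coe_ne_zero N hb
  by_cases ha : (a : FN N) = 0
  · rw [ha, zero_div, map_zero, map_zero]
  · have ha' : a ≠ 0 := ExtAux.coord_ne_zero_of_coe_ne_zero N ha
    rw [ExtAux.order_map_div τ ha hb, ExtAux.order_map_div τ' ha hb, h a ha', h b hb']

/-- Divisibility of orders extends from the coordinate ring to `FN N`. -/
theorem dvd_order_of_coord (N : ℕ) [NeZero N] (τ : FN N →+* LaurentSeries ℂ) (m : ℤ)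
    (h : ∀ a : coordRing N, a ≠ 0 → m ∣ (τ (a : FN N)).order) (f : FN N) (hf : f ≠ 0) :
    m ∣ (τ f).order := by
  obtain ⟨a, b, hb, rfl⟩ := exists_div_coordRing N f
  have hb' : b ≠ 0 := ExtAux.coord_ne_zero_of_coe_ne_zero N hb
  have ha : (a : FN N) ≠ 0 := by
    intro h0
    apply hf
    rw [h0, zero_div]
  have ha' : a ≠ 0 := ExtAux.coord_ne_zero_of_coe_ne_zero N ha
  rw [ExtAux.order_map_div τ ha hb]
  exact dvd_sub (h a ha') (h b hb')

end Fermat.Agent.S24
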