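import Fermat.Agent.S24.Ana.Points.Tau

/-!
# S24 / Points: values and orders of the Taylor embeddings on constants and on `j - c`; dependence
on the coset (aux file for `Ana/Points.lean`)
-/

set_option autoImplicit false

noncomputable section

namespace Fermat.Agent.S24

open AlgebraicCurve ModularCurve IntermediateField UpperHalfPlane
open scoped MatrixGroups Manifold

namespace FamAux

/-- The conjugates of a constant are constant functions. -/
theorem conjFun_algebraMap_eq (N : ℕ) [NeZero N] (g : SL(2, ℤ)) (c : Qb) :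
    conjFun N g (algebraMap Qb (coordRing N) c) = fun _ => φ c :=
  funext fun z => conjFun_algebraMap N g c z

/-- The conjugates of `j` are all equal to `Jfun`. -/
theorem conjFun_jCoord_eq (N : ℕ) [NeZero N] (g : SL(2, ℤ)) :
    conjFun N g (jCoord N) = Jfun :=
  funext fun z => conjFun_jCoord N g z

/-- The conjugates of `j - c`. -/
theorem conjFun_jCoord_sub (N : ℕ) [NeZero N] (g : SL(2, ℤ)) (c : Qb) :
    conjFun N g (jCoord N - algebraMap Qb (coordRing N) c) = fun z => Jfun z - φ c := by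
  have h := (conjH N g).map_sub (jCoord N) (algebraMap Qb (coordRing N) c)
  have h' : conjFun N g (jCoord N - algebraMap Qb (coordRing N) c) =
      conjFun N g (jCoord N) - conjFun N g (algebraMap Qb (coordRing N) c) := h
  rw [h', conjFun_jCoord_eq, conjFun_algebraMap_eq]
  rfl

/-- `j - c` is a nonzero element of the coordinate ring. -/
theorem jCoord_sub_ne_zero (N : ℕ) [NeZero N] (c : Qb) :
    jCoord N - algebraMap Qb (coordRing N) c ≠ 0 := by
  intro h0
  have hz : conjFun N 1 (jCoord N - algebraMap Qb (coordRing N) c) = 0 := by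
    rw [h0]
    exact conjFun_zero N 1
  rw [conjFun_jCoord_sub] at hz
  have hI : Jfun UpperHalfPlane.I - φ c = 0 := congrFun hz UpperHalfPlane.I
  have hρ : Jfun rho - φ c = 0 := congrFun hz rho
  rw [Jfun_I] at hI
  rw [Jfun_rho] at hρ
  have h1728 : (1728 : ℂ) = 0 := by
    have e1 : (1728 : ℂ) = φ c := sub_eq_zero.mp hI
    have e2 : (0 : ℂ) = φ c := sub_eq_zero.mp hρ
    rw [e1, ← e2]
  norm_num at h1728

end FamAux

theorem tauHom_algebraMap (N : ℕ) [NeZero N] (z₀ : ℍ) (g : SL(2, ℤ)) (c : Qb) :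
    tauHom N z₀ g (algebraMap Qb (FN N) c) = HahnSeries.C (φ c) := by
  have h1 : algebraMap Qb (FN N) c = ((algebraMap Qb (coordRing N) c : coordRing N) : FN N) :=
    rfl
  rw [h1, tauHom_coe, tayHom_apply, FamAux.conjFun_algebraMap_eq]
  have h2 : ((fun _ : ℍ => φ c) ∘ ofComplex) = fun _ : ℂ => φ c := rfl
  rw [h2, taylorAt_const, HahnSeries.ofPowerSeries_C]

theorem tauHom_jBar (N : ℕ) [NeZero N] (z₀ : ℍ) (g : SL(2, ℤ)) :
    tauHom N z₀ g (jBar N) =
      HahnSeries.ofPowerSeries ℤ ℂ (taylorAt (z₀ : ℂ) (Jfun ∘ ofComplex)) := by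
  have h1 : jBar N = ((jCoord N : coordRing N) : FN N) := rfl
  rw [h1, tauHom_coe, tayHom_apply, FamAux.conjFun_jCoord_eq]

/-- Nonzero constants have order `0`. -/
theorem order_tauHom_algebraMap (N : ℕ) [NeZero N] (z₀ : ℍ) (g : SL(2, ℤ)) (c : Qb)
    (hc : c ≠ 0) : (tauHom N z₀ g (algebraMap Qb (FN N) c)).order = 0 := by
  rw [tauHom_algebraMap]
  exact HahnSeries.order_single ((map_ne_zero φ).mpr hc)

/-- If `j(z₀) = c`, the order of `j - c` at the point `z₀` (for any conjugate) is the order of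
vanishing of `Jfun - Jfun z₀` at `z₀`. -/
theorem order_tauHom_jBar_sub (N : ℕ) [NeZero N] (z₀ : ℍ) (g : SL(2, ℤ)) (c : Qb)
    (hc : Jfun z₀ = φ c) :
    (tauHom N z₀ g (jBar N - algebraMap Qb (FN N) c)).order =
      ((analyticOrderAt (fun w : ℂ => Jfun (ofComplex w) - Jfun z₀) (z₀ : ℂ)).toNat : ℤ) := by
  have h1 : jBar N - algebraMap Qb (FN N) c =
      ((jCoord N - algebraMap Qb (coordRing N) c : coordRing N) : FN N) := rfl
  rw [h1, order_tauHom_coe N z₀ g _ (FamAux.jCoord_sub_ne_zero N c),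
    FamAux.conjFun_jCoord_sub, hc]
  rfl

/-- Distinct cosets give distinct Taylor embeddings. -/
theorem tauHom_distinct (N : ℕ) [NeZero N] (z₀ : ℍ) (g g' : SL(2, ℤ))
    (h : tauHom N z₀ g = tauHom N z₀ g') :
    (QuotientGroup.mk g : Cosets N) = QuotientGroup.mk g' :=
  conjFun_distinct N g g' ((tauHom_eq_iff N z₀ g g').mp h)

/-- The Taylor embedding only depends on the coset `g Γ₀(N)`. -/
theorem tauHom_mul_right (N : ℕ) [NeZero N] (z₀ : ℍ) (g γ : SL(2, ℤ))
    (hγ : γ ∈ CongruenceSubgroup.Gamma0 N) : tauHom N z₀ (g * γ) = tauHom N z₀ g :=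
  (tauHom_eq_iff N z₀ (g * γ) g).mpr fun a => conjFun_mul_right N g γ hγ a

end Fermat.Agent.S24
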