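import Fermat.Agent.S24.Ana.JFacts

/-!
# S24 / Points: the order of vanishing of a germ invariant under an elliptic element
(aux file for `Ana/Points.lean`; draft by helper7, owner helper2)
-/

set_option autoImplicit false

noncomputable section

namespace Fermat.Agent.S24

open UpperHalfPlane Filter Topology
open scoped MatrixGroups Manifold

/-- `m(w) - m(z₀) = (w - z₀) / ((c w + d)(c z₀ + d))` for the Möbius map `m` of `γ ∈ SL₂(ℤ)`. -/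
theorem moebius_sub (γ : SL(2, ℤ)) (z₀ : ℍ) (w : ℂ)
    (hw : ((γ 1 0 : ℤ) : ℂ) * w + ((γ 1 1 : ℤ) : ℂ) ≠ 0) :
    (((γ 0 0 : ℤ) : ℂ) * w + ((γ 0 1 : ℤ) : ℂ)) / (((γ 1 0 : ℤ) : ℂ) * w + ((γ 1 1 : ℤ) : ℂ)) -
      (((γ 0 0 : ℤ) : ℂ) * z₀ + ((γ 0 1 : ℤ) : ℂ)) / (((γ 1 0 : ℤ) : ℂ) * z₀ + ((γ 1 1 : ℤ) : ℂ)) =
    (w - z₀) / ((((γ 1 0 : ℤ) : ℂ) * w + ((γ 1 1 : ℤ) : ℂ)) *
      (((γ 1 0 : ℤ) : ℂ) * z₀ + ((γ 1 1 : ℤ) : ℂ))) := by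
  have hD := denom_ne_zero' γ z₀
  have hdet : ((γ 0 0 : ℤ) : ℂ) * ((γ 1 1 : ℤ) : ℂ) - ((γ 0 1 : ℤ) : ℂ) * ((γ 1 0 : ℤ) : ℂ) = 1 := by
    have h := γ.det_coe
    rw [Matrix.det_fin_two] at h
    exact_mod_cast h
  rw [div_sub_div _ _ hw hD, div_left_inj' (mul_ne_zero hw hD)]
  linear_combination (w - (z₀ : ℂ)) * hdet

namespace LocalAux

/-- Abstract form of the local computation: if `F = (w - z₀)ⁿ u` near `z₀` with `u` continuous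
and nonvanishing at `z₀`, and `F` is invariant under a continuous germ `m` fixing `z₀` with
`m w - z₀ = (w - z₀) / den w`, then `(den z₀)ⁿ = 1`. -/
theorem pow_eq_one_of_germ {F u m den : ℂ → ℂ} {z₀ : ℂ} {n : ℕ}
    (hu : ContinuousAt u z₀) (hu0 : u z₀ ≠ 0)
    (hFu : ∀ᶠ w in 𝓝 z₀, F w = (w - z₀) ^ n • u w)
    (hm : ContinuousAt m z₀) (hm0 : m z₀ = z₀)
    (hFm : ∀ᶠ w in 𝓝 z₀, F w = F (m w))
    (hden : ContinuousAt den z₀) (hden0 : den z₀ ≠ 0)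
    (hsub : ∀ᶠ w in 𝓝 z₀, m w - z₀ = (w - z₀) / den w) :
    den z₀ ^ n = 1 := by
  have hmt : Tendsto m (𝓝 z₀) (𝓝 z₀) := by
    have h1 := hm.tendsto
    rwa [hm0] at h1
  have hFu' : ∀ᶠ w in 𝓝 z₀, F (m w) = (m w - z₀) ^ n • u (m w) := hmt.eventually hFu
  have hden_ev : ∀ᶠ w in 𝓝 z₀, den w ≠ 0 := hden.eventually_ne hden0
  have hkey : ∀ᶠ w in 𝓝[≠] z₀, u w * den w ^ n = u (m w) := by
    rw [eventually_nhdsWithin_iff]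
    filter_upwards [hFu, hFu', hFm, hden_ev, hsub] with w h1 h2 h3 h4 h5 hw
    have hw' : w - z₀ ≠ 0 := sub_ne_zero.mpr hw
    have h7 : (w - z₀) ^ n ≠ 0 := pow_ne_zero n hw'
    have h8 : den w ^ n ≠ 0 := pow_ne_zero n h4
    have h6 : (w - z₀) ^ n * u w = (w - z₀) ^ n / den w ^ n * u (m w) := by
      rw [← div_pow, ← h5, ← smul_eq_mul, ← smul_eq_mul, ← h1, ← h2, h3]
    have h9 : (w - z₀) ^ n * (u w * den w ^ n) = (w - z₀) ^ n * u (m w) := by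
      calc (w - z₀) ^ n * (u w * den w ^ n) = ((w - z₀) ^ n * u w) * den w ^ n := by ring
        _ = ((w - z₀) ^ n / den w ^ n * u (m w)) * den w ^ n := by rw [h6]
        _ = (w - z₀) ^ n * u (m w) := by field_simp
    exact mul_left_cancel₀ h7 h9
  have hL : Tendsto (fun w => u w * den w ^ n) (𝓝[≠] z₀) (𝓝 (u z₀ * den z₀ ^ n)) :=
    ((hu.mul (hden.pow n)).tendsto).mono_left nhdsWithin_le_nhds
  have hR : Tendsto (fun w => u (m w)) (𝓝[≠] z₀) (𝓝 (u z₀)) := by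
    have h1 : Tendsto u (𝓝 z₀) (𝓝 (u z₀)) := hu.tendsto
    exact (h1.comp hmt).mono_left nhdsWithin_le_nhds
  have heq : u z₀ * den z₀ ^ n = u z₀ := tendsto_nhds_unique (hL.congr' hkey) hR
  have h10 : u z₀ * den z₀ ^ n = u z₀ * 1 := by rw [heq, mul_one]
  exact mul_left_cancel₀ hu0 h10

end LocalAux

/-- If a holomorphic function `h` on `ℍ` is invariant under `γ ∈ SL₂(ℤ)` fixing `z₀`, and `h`
vanishes to order exactly `n` at `z₀`, then `((c z₀ + d)²)ⁿ = 1` (the derivative of `γ` at `z₀`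
is `1/(c z₀ + d)²`). -/
theorem pow_order_eq_one_of_invariant (γ : SL(2, ℤ)) (z₀ : ℍ) (hfix : γ • z₀ = z₀) {h : ℍ → ℂ}
    (hh : MDifferentiable 𝓘(ℂ) 𝓘(ℂ) h) (hinv : ∀ z, h (γ • z) = h z) (n : ℕ)
    (hn : analyticOrderAt (h ∘ ofComplex) (z₀ : ℂ) = n) :
    ((((γ 1 0 : ℤ) : ℂ) * z₀ + ((γ 1 1 : ℤ) : ℂ)) ^ 2) ^ n = 1 := by
  have hF : AnalyticAt ℂ (h ∘ ofComplex) (z₀ : ℂ) := analyticAt_comp_ofComplex hh z₀
  obtain ⟨u, hu, hu0, hFu⟩ := (hF.analyticOrderAt_eq_natCast).mp hn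
  have hD := denom_ne_zero' γ z₀
  have hm0 : (((γ 0 0 : ℤ) : ℂ) * z₀ + ((γ 0 1 : ℤ) : ℂ)) /
      (((γ 1 0 : ℤ) : ℂ) * z₀ + ((γ 1 1 : ℤ) : ℂ)) = (z₀ : ℂ) := by
    rw [← coe_smul_eq, hfix]
  have hm : ContinuousAt (fun w : ℂ => (((γ 0 0 : ℤ) : ℂ) * w + ((γ 0 1 : ℤ) : ℂ)) /
      (((γ 1 0 : ℤ) : ℂ) * w + ((γ 1 1 : ℤ) : ℂ))) (z₀ : ℂ) :=
    (hasDerivAt_moebius γ z₀).continuousAt
  have hFm : ∀ᶠ w in 𝓝 (z₀ : ℂ), (h ∘ ofComplex) w =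
      (h ∘ ofComplex) ((fun w : ℂ => (((γ 0 0 : ℤ) : ℂ) * w + ((γ 0 1 : ℤ) : ℂ)) /
        (((γ 1 0 : ℤ) : ℂ) * w + ((γ 1 1 : ℤ) : ℂ))) w) := by
    have h1 := comp_smul_eventuallyEq γ h z₀
    have h2 : (fun z : ℍ => h (γ • z)) = h := funext hinv
    rw [h2] at h1
    exact h1
  have hden : ContinuousAt (fun w : ℂ => (((γ 1 0 : ℤ) : ℂ) * w + ((γ 1 1 : ℤ) : ℂ)) *
      (((γ 1 0 : ℤ) : ℂ) * z₀ + ((γ 1 1 : ℤ) : ℂ))) (z₀ : ℂ) := by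
    fun_prop
  have hcw : ∀ᶠ w in 𝓝 (z₀ : ℂ), ((γ 1 0 : ℤ) : ℂ) * w + ((γ 1 1 : ℤ) : ℂ) ≠ 0 :=
    ContinuousAt.eventually_ne (by fun_prop) hD
  have hsub : ∀ᶠ w in 𝓝 (z₀ : ℂ),
      (fun w : ℂ => (((γ 0 0 : ℤ) : ℂ) * w + ((γ 0 1 : ℤ) : ℂ)) /
        (((γ 1 0 : ℤ) : ℂ) * w + ((γ 1 1 : ℤ) : ℂ))) w - (z₀ : ℂ) =
      (w - (z₀ : ℂ)) / (fun w : ℂ => (((γ 1 0 : ℤ) : ℂ) * w + ((γ 1 1 : ℤ) : ℂ)) *
        (((γ 1 0 : ℤ) : ℂ) * z₀ + ((γ 1 1 : ℤ) : ℂ))) w := by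
    filter_upwards [hcw] with w hw
    have h1 := moebius_sub γ z₀ w hw
    rw [hm0] at h1
    exact h1
  have key := LocalAux.pow_eq_one_of_germ hu.continuousAt hu0 hFu hm hm0 hFm hden
    (mul_ne_zero hD hD) hsub
  rw [sq]
  exact key

end Fermat.Agent.S24
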