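import Fermat.Agent.S24.Basic

/-!
# S24 / Points: orbits of a cyclic group `⟨ε⟩` (with `ε^m = -1`, `m` prime) on the cosets
(aux file for `Ana/Points.lean`; draft by helper7, owner helper2)
-/

set_option autoImplicit false

noncomputable section

namespace Fermat.Agent.S24

open scoped MatrixGroups

theorem S_pow_two : ModularGroup.S ^ 2 = -1 := by
  decide

theorem ST_pow_three : (ModularGroup.S * ModularGroup.T) ^ 3 = -1 := by
  decide

namespace PointsOrbitAux

/-- `-1` lies in `Γ₀(N)`. -/
theorem neg_one_mem_Gamma0 (N : ℕ) : (-1 : SL(2, ℤ)) ∈ CongruenceSubgroup.Gamma0 N := by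
  rw [CongruenceSubgroup.Gamma0_mem]
  simp

/-- The equivalence class of `x` for the orbit relation of `⟨g⟩` has as many elements as the
minimal period of `x` under `g`. -/
theorem card_orbitRel_class {G X : Type*} [Group G] [MulAction G X] (g : G) (x : X) :
    Nat.card {x' : X // MulAction.orbitRel (Subgroup.zpowers g) X x x'} =
      Function.minimalPeriod (g • ·) x := by
  have h1 : Nat.card {x' : X // MulAction.orbitRel (Subgroup.zpowers g) X x x'} =
      Nat.card (MulAction.orbit (Subgroup.zpowers g) x) := by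
    refine Nat.card_congr (Equiv.subtypeEquivRight fun x' => ?_)
    rw [MulAction.orbitRel_apply]
    exact MulAction.mem_orbit_symm
  rw [h1, Nat.card_congr (MulAction.orbitZPowersEquiv g x), Nat.card_zmod]

/-- The same statement for the action on the cosets (with the action instance used in
`orbit_dichotomy`). -/
theorem card_orbitRel_class_cosets (N : ℕ) (ε : SL(2, ℤ)) (i : Cosets N) :
    Nat.card {i' : Cosets N // MulAction.orbitRel (Subgroup.zpowers ε) (Cosets N) i i'} =
      Function.minimalPeriod (ε • ·) i :=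
  card_orbitRel_class ε i

end PointsOrbitAux

/-- `-1 ∈ Γ₀(N)` acts trivially on the cosets. -/
theorem neg_one_smul_coset (N : ℕ) [NeZero N] (i : Cosets N) : (-1 : SL(2, ℤ)) • i = i := by
  induction i using QuotientGroup.induction_on with
  | H g =>
    change (QuotientGroup.mk ((-1 : SL(2, ℤ)) * g) : Cosets N) = QuotientGroup.mk g
    rw [QuotientGroup.eq]
    have h : ((-1 : SL(2, ℤ)) * g)⁻¹ * g = -1 := by
      rw [inv_mul_eq_iff_eq_mul, neg_mul, one_mul, neg_mul_neg, mul_one]
    rw [h]
    exact PointsOrbitAux.neg_one_mem_Gamma0 N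

theorem orbitRel_zpowers_iff (N : ℕ) (ε : SL(2, ℤ)) (i i' : Cosets N) :
    MulAction.orbitRel (Subgroup.zpowers ε) (Cosets N) i i' ↔ ∃ k : ℤ, i = ε ^ k • i' := by
  rw [MulAction.orbitRel_apply, MulAction.mem_orbit_iff]
  constructor
  · rintro ⟨⟨a, ha⟩, rfl⟩
    obtain ⟨k, rfl⟩ := Subgroup.mem_zpowers_iff.mp ha
    exact ⟨k, rfl⟩
  · rintro ⟨k, rfl⟩
    exact ⟨⟨ε ^ k, Subgroup.zpow_mem_zpowers ε k⟩, rfl⟩

/-- If `ε^m = -1` with `m` prime, an orbit of `⟨ε⟩` on the cosets is either a fixed point or has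
exactly `m` elements. -/
theorem orbit_dichotomy (N : ℕ) [NeZero N] (ε : SL(2, ℤ)) (m : ℕ) (hm : m.Prime)
    (hε : ε ^ m = -1) (i : Cosets N) :
    ε • i = i ∨
      Nat.card {i' : Cosets N // MulAction.orbitRel (Subgroup.zpowers ε) (Cosets N) i i'} = m := by
  rw [PointsOrbitAux.card_orbitRel_class_cosets]
  have hper : Function.IsPeriodicPt (ε • ·) m i := by
    change (ε • ·)^[m] i = i
    rw [smul_iterate, hε]
    exact neg_one_smul_coset N i
  rcases (Nat.dvd_prime hm).mp hper.minimalPeriod_dvd with h | h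
  · left
    exact Function.minimalPeriod_eq_one_iff_isFixedPt.mp h
  · right
    exact h

/-- The chosen representative of `g • i` is `g * (representative of i) * γ` with `γ ∈ Γ₀(N)`. -/
theorem out_smul (N : ℕ) [NeZero N] (g : SL(2, ℤ)) (i : Cosets N) :
    ∃ γ ∈ CongruenceSubgroup.Gamma0 N,
      (Quotient.out (g • i) : SL(2, ℤ)) = g * (Quotient.out i : SL(2, ℤ)) * γ := by
  refine ⟨(g * (Quotient.out i : SL(2, ℤ)))⁻¹ * (Quotient.out (g • i) : SL(2, ℤ)), ?_, ?_⟩
  · rw [← QuotientGroup.eq]
    have h1 : (QuotientGroup.mk (Quotient.out (g • i) : SL(2, ℤ)) : Cosets N) = g • i :=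
      QuotientGroup.out_eq' _
    have h2 : (QuotientGroup.mk (g * (Quotient.out i : SL(2, ℤ))) : Cosets N) = g • i := by
      conv_rhs => rw [← QuotientGroup.out_eq' i]
      rfl
    rw [h1, h2]
  · rw [mul_inv_cancel_left]

/-- The coset of `ε * (representative of i)` is `ε • i`. -/
theorem mk_mul_out_eq_smul (N : ℕ) (ε : SL(2, ℤ)) (i : Cosets N) :
    (QuotientGroup.mk (ε * Quotient.out i) : Cosets N) = ε • i := by
  conv_rhs => rw [← QuotientGroup.out_eq' i]
  rfl

/-- Powers of an element fixing a point fix the point. -/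
theorem zpow_smul_eq_of_smul_eq {X : Type*} [MulAction SL(2, ℤ) X] (ε : SL(2, ℤ)) (x : X)
    (h : ε • x = x) (k : ℤ) : ε ^ k • x = x := by
  have hmem : ε ∈ MulAction.stabilizer SL(2, ℤ) x := MulAction.mem_stabilizer_iff.mpr h
  exact MulAction.mem_stabilizer_iff.mp (zpow_mem hmem k)

/-- The quotient by the trivial equivalence relation has the same cardinality. -/
theorem card_quotient_bot (I : Type*) : Nat.card (Quotient (⊥ : Setoid I)) = Nat.card I := by
  refine (Nat.card_congr (Equiv.ofBijective (Quotient.mk (⊥ : Setoid I)) ⟨?_, ?_⟩)).symm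
  · intro a b hab
    exact Quotient.exact hab
  · exact Quotient.mk_surjective

end Fermat.Agent.S24
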