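import Fermat.Agent.S24.Ana.JFacts

/-!
# S24 / Points: the derivatives of `S` at `i` and of `S*T` at `ρ` are primitive roots of unity
of order `2` and `3` (aux file for `Ana/Points.lean`)
-/

set_option autoImplicit false

noncomputable section

namespace Fermat.Agent.S24

open UpperHalfPlane Filter Topology
open scoped MatrixGroups Manifold

namespace RootsAux

theorem S_one_zero : (ModularGroup.S 1 0 : ℤ) = 1 := by
  simp [ModularGroup.S]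

theorem S_one_one : (ModularGroup.S 1 1 : ℤ) = 0 := by
  simp [ModularGroup.S]

theorem ST_one_zero : ((ModularGroup.S * ModularGroup.T) 1 0 : ℤ) = 1 := by
  rw [Matrix.SpecialLinearGroup.coe_mul, ModularGroup.coe_S, ModularGroup.coe_T]
  simp [Matrix.mul_apply, Fin.sum_univ_two]

theorem ST_one_one : ((ModularGroup.S * ModularGroup.T) 1 1 : ℤ) = 1 := by
  rw [Matrix.SpecialLinearGroup.coe_mul, ModularGroup.coe_S, ModularGroup.coe_T]
  simp [Matrix.mul_apply, Fin.sum_univ_two]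

theorem sqrt_three_sq : ((Real.sqrt 3 : ℝ) : ℂ) ^ 2 = 3 := by
  have h : (Real.sqrt 3) ^ 2 = 3 := Real.sq_sqrt (by norm_num)
  exact_mod_cast h

theorem coe_rho : (rho : ℂ) = -1 / 2 + ((Real.sqrt 3 : ℝ) : ℂ) / 2 * Complex.I := by
  have h : (rho : ℂ) = -1 / 2 + ((Real.sqrt 3 / 2 : ℝ) : ℂ) * Complex.I := rfl
  rw [h]
  push_cast
  ring

/-- `(ρ + 1)² = ρ`. -/
theorem rho_add_one_sq :
    (((1 : ℤ) : ℂ) * (rho : ℂ) + ((1 : ℤ) : ℂ)) ^ 2 =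
      -1 / 2 + ((Real.sqrt 3 : ℝ) : ℂ) / 2 * Complex.I := by
  rw [coe_rho]
  push_cast
  linear_combination (((Real.sqrt 3 : ℝ) : ℂ) ^ 2 / 4) * Complex.I_sq - (1 / 4) * sqrt_three_sq

/-- `ζ = (ρ + 1)²` satisfies `ζ² + ζ + 1 = 0`. -/
theorem rho_cyclotomic :
    ((((1 : ℤ) : ℂ) * (rho : ℂ) + ((1 : ℤ) : ℂ)) ^ 2) ^ 2 +
      (((1 : ℤ) : ℂ) * (rho : ℂ) + ((1 : ℤ) : ℂ)) ^ 2 + 1 = 0 := by
  rw [rho_add_one_sq]
  linear_combination (((Real.sqrt 3 : ℝ) : ℂ) ^ 2 / 4) * Complex.I_sq - (1 / 4) * sqrt_three_sq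

end RootsAux

/-- `S` at `i`: `(i²)ⁿ = 1` forces `2 ∣ n`. -/
theorem S_root_cond (n : ℕ)
    (h : ((((ModularGroup.S 1 0 : ℤ) : ℂ) * (UpperHalfPlane.I : ℂ) +
      ((ModularGroup.S 1 1 : ℤ) : ℂ)) ^ 2) ^ n = 1) : 2 ∣ n := by
  rw [RootsAux.S_one_zero, RootsAux.S_one_one] at h
  have h2 : ((-1 : ℂ)) ^ n = 1 := by
    have e : (((1 : ℤ) : ℂ) * (UpperHalfPlane.I : ℂ) + ((0 : ℤ) : ℂ)) ^ 2 = -1 := by
      rw [UpperHalfPlane.coe_I]
      push_cast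
      rw [one_mul, add_zero, Complex.I_sq]
    rw [e] at h
    exact h
  rcases Nat.even_or_odd n with he | ho
  · exact even_iff_two_dvd.1 he
  · exfalso
    rw [ho.neg_one_pow] at h2
    norm_num at h2

/-- `S*T` at `ρ`: `((ρ+1)²)ⁿ = 1` forces `3 ∣ n`. -/
theorem ST_root_cond (n : ℕ)
    (h : (((((ModularGroup.S * ModularGroup.T) 1 0 : ℤ) : ℂ) * (rho : ℂ) +
      (((ModularGroup.S * ModularGroup.T) 1 1 : ℤ) : ℂ)) ^ 2) ^ n = 1) : 3 ∣ n := by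
  rw [RootsAux.ST_one_zero, RootsAux.ST_one_one] at h
  have hcyc := RootsAux.rho_cyclotomic
  generalize (((1 : ℤ) : ℂ) * (rho : ℂ) + ((1 : ℤ) : ℂ)) ^ 2 = ζ at h hcyc
  have h3 : ζ ^ 3 = 1 := by linear_combination (ζ - 1) * hcyc
  have h1 : ζ ≠ 1 := by
    intro h1
    rw [h1] at hcyc
    norm_num at hcyc
  have : Fact (Nat.Prime 3) := ⟨Nat.prime_three⟩
  have hord : orderOf ζ = 3 := orderOf_eq_prime h3 h1
  rw [← hord]
  exact orderOf_dvd_of_pow_eq_one h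

end Fermat.Agent.S24
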