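import Fermat.Agent.S24.Ana.Points.Tau
import Fermat.Agent.S24.Ana.Points.Ext
import Fermat.Agent.S24.Ana.Points.Local

/-!
# S24 / Points: behaviour of the Taylor embeddings at a point `z₀` fixed by `ε ∈ SL₂(ℤ)` under
`g ↦ ε g` (aux file for `Ana/Points.lean`)
-/

set_option autoImplicit false

noncomputable section

namespace Fermat.Agent.S24

open AlgebraicCurve ModularCurve IntermediateField UpperHalfPlane
open scoped MatrixGroups Manifold

/-- If `ε` fixes `z₀`, the Taylor embeddings at `z₀` attached to `g` and to `ε g` induce the same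
order function. -/
theorem order_tauHom_mul_left_of_fix (N : ℕ) [NeZero N] (z₀ : ℍ) (ε g : SL(2, ℤ))
    (hfix : ε • z₀ = z₀) (f : FN N) :
    (tauHom N z₀ (ε * g) f).order = (tauHom N z₀ g f).order := by
  refine order_eq_of_coord N _ _ (fun a ha => ?_) f
  rw [order_tauHom_coe N z₀ (ε * g) a ha, order_tauHom_coe N z₀ g a ha]
  have hfun : conjFun N (ε * g) a = fun z : ℍ => conjFun N g a (ε⁻¹ • z) :=
    funext fun z => conjFun_mul_left N ε g a z
  have hfix' : ε⁻¹ • z₀ = z₀ := by rw [inv_smul_eq_iff, hfix]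
  rw [hfun, analyticOrderAt_comp_smul ε⁻¹ (conjFun_mdiff N g a) z₀, hfix']

/-- If `ε` fixes `z₀` and the coset of `g`, then the orders at `z₀` of the `g`-conjugates are
divisible by `m`, where `m` is such that `((c z₀ + d)²)ⁿ = 1 → m ∣ n` (`(c, d)` the bottom row of
`ε`; `1/(c z₀ + d)²` is the derivative of `ε` at `z₀`). -/
theorem dvd_order_tauHom_of_fix (N : ℕ) [NeZero N] (z₀ : ℍ) (ε g : SL(2, ℤ))
    (hfix : ε • z₀ = z₀)
    (hcoset : (QuotientGroup.mk (ε * g) : Cosets N) = QuotientGroup.mk g) (m : ℕ)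
    (hroot : ∀ n : ℕ,
      ((((ε 1 0 : ℤ) : ℂ) * (z₀ : ℂ) + ((ε 1 1 : ℤ) : ℂ)) ^ 2) ^ n = 1 → m ∣ n)
    (f : FN N) (hf : f ≠ 0) : (m : ℤ) ∣ (tauHom N z₀ g f).order := by
  refine dvd_order_of_coord N _ (m : ℤ) (fun a ha => ?_) f hf
  -- `ε * g = g * γ` with `γ ∈ Γ₀(N)`
  have hγ : g⁻¹ * (ε * g) ∈ CongruenceSubgroup.Gamma0 N := QuotientGroup.eq.mp hcoset.symm
  have hconj : conjFun N (ε * g) a = conjFun N g a := by
    have h1 := conjFun_mul_right N g (g⁻¹ * (ε * g)) hγ a
    rwa [mul_inv_cancel_left] at h1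
  -- hence the `g`-conjugate of `a` is invariant under `ε`
  have hinv' : ∀ z : ℍ, conjFun N g a (ε⁻¹ • z) = conjFun N g a z := by
    intro z
    rw [← conjFun_mul_left N ε g a z, hconj]
  have hinv : ∀ z : ℍ, conjFun N g a (ε • z) = conjFun N g a z := by
    intro z
    have h2 := hinv' (ε • z)
    rw [inv_smul_smul] at h2
    exact h2.symm
  -- its order of vanishing at `z₀` is finite, and the local lemma applies
  have hne := analyticOrderAt_conjFun_ne_top N z₀ g a ha
  have hn : analyticOrderAt (conjFun N g a ∘ ofComplex) (z₀ : ℂ)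
      = ((analyticOrderAt (conjFun N g a ∘ ofComplex) (z₀ : ℂ)).toNat : ℕ∞) :=
    (ENat.natCast_toNat hne).symm
  have hpow := pow_order_eq_one_of_invariant ε z₀ hfix (conjFun_mdiff N g a) hinv _ hn
  rw [order_tauHom_coe N z₀ g a ha]
  exact Int.natCast_dvd_natCast.mpr (hroot _ hpow)

end Fermat.Agent.S24
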