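import Fermat.Agent.S24.Ana.Degree

/-!
# S24 / Points: Taylor-expansion embeddings `FN N →+* ℂ((X))` at a point `z₀ ∈ ℍ`
(aux file for `Ana/Points.lean`; draft by helper7, owner helper2)
-/

set_option autoImplicit false

noncomputable section

namespace Fermat.Agent.S24

open AlgebraicCurve ModularCurve IntermediateField UpperHalfPlane
open scoped MatrixGroups Manifold

namespace TauAux

/-- Each conjugate, transported to `ℂ` via `ofComplex`, is analytic at every point of `ℍ`. -/
theorem conjFun_comp_ofComplex_analyticAt (N : ℕ) [NeZero N] (z₀ : ℍ) (g : SL(2, ℤ))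
    (a : coordRing N) : AnalyticAt ℂ (conjFun N g a ∘ ofComplex) (z₀ : ℂ) :=
  analyticAt_comp_ofComplex (conjFun_mdiff N g a) z₀

/-- The Hahn series of a power series has no coefficients in negative degrees. -/
theorem coeff_ofPowerSeries_of_neg (P : PowerSeries ℂ) {m : ℤ} (hm : m < 0) :
    (HahnSeries.ofPowerSeries ℤ ℂ P).coeff m = 0 := by
  rw [HahnSeries.ofPowerSeries_apply]
  apply HahnSeries.embDomain_of_notMem_range
  rintro ⟨k, hk⟩
  have hk' : (k : ℤ) = m := hk
  omega

/-- The order of the Hahn series of a nonzero power series is the order of the power series. -/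
theorem order_ofPowerSeries_eq (P : PowerSeries ℂ) (hP : P ≠ 0) :
    (HahnSeries.ofPowerSeries ℤ ℂ P).order = (P.order.toNat : ℤ) := by
  have hne : HahnSeries.ofPowerSeries ℤ ℂ P ≠ 0 := fun h =>
    hP (HahnSeries.ofPowerSeries_injective (by rw [h, map_zero]))
  apply le_antisymm
  · apply HahnSeries.order_le_of_coeff_ne_zero
    rw [HahnSeries.ofPowerSeries_apply_coeff]
    exact PowerSeries.coeff_order hP
  · by_contra hlt
    rw [not_le] at hlt
    have hc : (HahnSeries.ofPowerSeries ℤ ℂ P).coeff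
        (HahnSeries.ofPowerSeries ℤ ℂ P).order ≠ 0 := by
      rwa [Ne, HahnSeries.coeff_order_eq_zero]
    apply hc
    rcases lt_or_ge (HahnSeries.ofPowerSeries ℤ ℂ P).order 0 with hneg | hnn
    · exact coeff_ofPowerSeries_of_neg P hneg
    · obtain ⟨k, hk⟩ := Int.eq_ofNat_of_zero_le hnn
      rw [hk] at hlt ⊢
      rw [HahnSeries.ofPowerSeries_apply_coeff]
      exact PowerSeries.coeff_of_lt_order_toNat k (by exact_mod_cast hlt)

end TauAux

/-- Taylor expansion at `z₀` of the `g`-conjugate, as a ring hom on the coordinate ring. -/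
def tayHom (N : ℕ) [NeZero N] (z₀ : ℍ) (g : SL(2, ℤ)) : coordRing N →+* PowerSeries ℂ where
  toFun a := taylorAt (z₀ : ℂ) (conjFun N g a ∘ ofComplex)
  map_one' := by
    have h : conjFun N g 1 ∘ ofComplex = fun _ => (1 : ℂ) := by
      rw [conjFun_one]
      rfl
    show taylorAt (z₀ : ℂ) (conjFun N g 1 ∘ ofComplex) = 1
    rw [h, taylorAt_const, map_one]
  map_mul' := by
    intro a b
    have h : conjFun N g (a * b) ∘ ofComplex =
        (conjFun N g a ∘ ofComplex) * (conjFun N g b ∘ ofComplex) := by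
      rw [conjFun_mul]
      rfl
    show taylorAt (z₀ : ℂ) (conjFun N g (a * b) ∘ ofComplex) =
      taylorAt (z₀ : ℂ) (conjFun N g a ∘ ofComplex) *
        taylorAt (z₀ : ℂ) (conjFun N g b ∘ ofComplex)
    rw [h, taylorAt_mul (TauAux.conjFun_comp_ofComplex_analyticAt N z₀ g a)
      (TauAux.conjFun_comp_ofComplex_analyticAt N z₀ g b)]
  map_zero' := by
    have h : conjFun N g 0 ∘ ofComplex = fun _ => (0 : ℂ) := by
      rw [conjFun_zero]
      rfl
    show taylorAt (z₀ : ℂ) (conjFun N g 0 ∘ ofComplex) = 0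
    rw [h, taylorAt_const, map_zero]
  map_add' := by
    intro a b
    have h : conjFun N g (a + b) ∘ ofComplex =
        (conjFun N g a ∘ ofComplex) + (conjFun N g b ∘ ofComplex) := by
      rw [conjFun_add]
      rfl
    show taylorAt (z₀ : ℂ) (conjFun N g (a + b) ∘ ofComplex) =
      taylorAt (z₀ : ℂ) (conjFun N g a ∘ ofComplex) +
        taylorAt (z₀ : ℂ) (conjFun N g b ∘ ofComplex)
    rw [h, taylorAt_add (TauAux.conjFun_comp_ofComplex_analyticAt N z₀ g a)
      (TauAux.conjFun_comp_ofComplex_analyticAt N z₀ g b)]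

theorem tayHom_apply (N : ℕ) [NeZero N] (z₀ : ℍ) (g : SL(2, ℤ)) (a : coordRing N) :
    tayHom N z₀ g a = taylorAt (z₀ : ℂ) (conjFun N g a ∘ ofComplex) := rfl

theorem tayHom_injective (N : ℕ) [NeZero N] (z₀ : ℍ) (g : SL(2, ℤ)) :
    Function.Injective (tayHom N z₀ g) := by
  rw [injective_iff_map_eq_zero]
  intro a ha
  rw [tayHom_apply,
    taylorAt_eq_zero_iff (TauAux.conjFun_comp_ofComplex_analyticAt N z₀ g a)] at ha
  exact conjFun_eq_zero N g a (eq_zero_of_eventually_zero (conjFun_mdiff N g a) z₀ ha)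

/-- The same with values in Laurent series. -/
def tayHomL (N : ℕ) [NeZero N] (z₀ : ℍ) (g : SL(2, ℤ)) : coordRing N →+* LaurentSeries ℂ :=
  (HahnSeries.ofPowerSeries ℤ ℂ).comp (tayHom N z₀ g)

theorem tayHomL_injective (N : ℕ) [NeZero N] (z₀ : ℍ) (g : SL(2, ℤ)) :
    Function.Injective (tayHomL N z₀ g) := by
  unfold tayHomL
  rw [RingHom.coe_comp]
  exact HahnSeries.ofPowerSeries_injective.comp (tayHom_injective N z₀ g)

/-- The Taylor-expansion embedding of the function field attached to `z₀` and `g`. -/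
def tauHom (N : ℕ) [NeZero N] (z₀ : ℍ) (g : SL(2, ℤ)) : FN N →+* LaurentSeries ℂ :=
  haveI := isFractionRing_coordRing N
  IsFractionRing.lift (tayHomL_injective N z₀ g)

theorem tauHom_coe (N : ℕ) [NeZero N] (z₀ : ℍ) (g : SL(2, ℤ)) (a : coordRing N) :
    tauHom N z₀ g (a : FN N) = HahnSeries.ofPowerSeries ℤ ℂ (tayHom N z₀ g a) := by
  have := isFractionRing_coordRing N
  exact IsFractionRing.lift_algebraMap (tayHomL_injective N z₀ g) a

theorem analyticOrderAt_conjFun_ne_top (N : ℕ) [NeZero N] (z₀ : ℍ) (g : SL(2, ℤ))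
    (a : coordRing N) (ha : a ≠ 0) :
    analyticOrderAt (conjFun N g a ∘ ofComplex) (z₀ : ℂ) ≠ ⊤ := by
  exact analyticOrderAt_ne_top_of_ne_zero (conjFun_mdiff N g a)
    (fun h => ha (conjFun_eq_zero N g a h)) z₀

/-- The order of the Taylor embedding of `a ≠ 0` is the order of vanishing at `z₀` of its
`g`-conjugate. -/
theorem order_tauHom_coe (N : ℕ) [NeZero N] (z₀ : ℍ) (g : SL(2, ℤ)) (a : coordRing N)
    (ha : a ≠ 0) :
    (tauHom N z₀ g (a : FN N)).order =
      ((analyticOrderAt (conjFun N g a ∘ ofComplex) (z₀ : ℂ)).toNat : ℤ) := by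
  have hne : tayHom N z₀ g a ≠ 0 := fun h =>
    ha (tayHom_injective N z₀ g (by rw [h, map_zero]))
  rw [tauHom_coe, TauAux.order_ofPowerSeries_eq _ hne, tayHom_apply,
    order_taylorAt (TauAux.conjFun_comp_ofComplex_analyticAt N z₀ g a)]

/-- The embedding determines (and is determined by) the conjugate functions. -/
theorem tauHom_eq_iff (N : ℕ) [NeZero N] (z₀ : ℍ) (g g' : SL(2, ℤ)) :
    tauHom N z₀ g = tauHom N z₀ g' ↔ ∀ a : coordRing N, conjFun N g a = conjFun N g' a := by
  constructor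
  · intro h a
    have h1 : HahnSeries.ofPowerSeries ℤ ℂ (tayHom N z₀ g a) =
        HahnSeries.ofPowerSeries ℤ ℂ (tayHom N z₀ g' a) := by
      rw [← tauHom_coe, ← tauHom_coe, h]
    have h2 := HahnSeries.ofPowerSeries_injective h1
    rw [tayHom_apply, tayHom_apply] at h2
    exact eq_of_taylorAt_eq (conjFun_mdiff N g a) (conjFun_mdiff N g' a) z₀ h2
  · intro h
    refine ringHom_ext_coordRing N fun a => ?_
    rw [tauHom_coe, tauHom_coe, tayHom_apply, tayHom_apply, h a]

end Fermat.Agent.S24
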